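import Fermat.Agent.MilnorKRat.Pfister
import Fermat.Agent.MerkurjevRat.Symbols
import Fermat.Agent.WittRat.Diagonal

/-!
# The symbol maps in degrees at most two

For every field: `W = ℤ⟨1⟩ + I`, `a ↦ ⟨⟨-a⟩⟩` is a homomorphism modulo `I²`, `(a, b) ↦ ⟨⟨-a, -b⟩⟩`
is a Steinberg symbol modulo `I³`, and a diagonal form is its rank, discriminant and Hasse
invariant modulo `I³`.
-/

set_option autoImplicit false

noncomputable section

open Function (update)

namespace Fermat.Agent.MilnorConjectureRat

open Fermat.Agent.K2Rat Fermat.Agent.WittRat Fermat.Agent.MerkurjevRat Fermat.Agent.MilnorKRat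

variable {F : Type*} [Field F]

theorem pfisterClass_mem (l : List Fˣ) {n : ℕ} (h : l.length = n) :
    pfisterClass l ∈ fundamentalPower F n := by
  subst h
  refine AddSubgroup.subset_closure ⟨l.get, ?_⟩
  dsimp only
  rw [List.ofFn_get]

theorem pfisterClass_one (a : Fˣ) :
    pfisterClass [a] = wittClass F 1 + wittClass F a := by
  simp [pfisterClass]

theorem pfisterClass_two (a b : Fˣ) :
    pfisterClass [a, b] =
      wittClass F 1 + wittClass F b + (wittClass F a + wittClass F (a * b)) := by
  simp [pfisterClass]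

/-- Powers of the fundamental ideal are stable under scaling. -/
theorem scale_mem {n : ℕ} (c : Fˣ) {z : W F} (hz : z ∈ fundamentalPower F (n + 1)) :
    scale c z ∈ fundamentalPower F (n + 1) := by
  revert z
  show fundamentalPower F (n + 1) ≤ (fundamentalPower F (n + 1)).comap (scale c)
  refine (AddSubgroup.closure_le _).2 ?_
  rintro _ ⟨v, rfl⟩
  show scale c (pfisterClass (List.ofFn v)) ∈ fundamentalPower F (n + 1)
  obtain ⟨a, l, hl⟩ := List.exists_cons_of_ne_nil
    (l := List.ofFn v) (fun e => by simpa using congrArg List.length e)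
  have hlen : l.length = n := by
    have := congrArg List.length hl
    simpa using this.symm
  rw [hl, show scale c (pfisterClass (a :: l)) =
      pfisterClass ((c * a) :: l) - pfisterClass ((-c) :: l) by
    simp only [pfisterClass, map_add, scale_scale, scale_neg]
    abel]
  exact sub_mem (pfisterClass_mem _ (by simp [hlen])) (pfisterClass_mem _ (by simp [hlen]))

theorem fundamentalPower_anti (n : ℕ) :
    fundamentalPower F (n + 2) ≤ fundamentalPower F (n + 1) := by
  refine (AddSubgroup.closure_le _).2 ?_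
  rintro _ ⟨v, rfl⟩
  dsimp only
  rw [List.ofFn_succ, pfisterClass]
  exact add_mem (pfisterClass_mem _ (List.length_ofFn))
    (scale_mem _ (pfisterClass_mem _ (List.length_ofFn)))

/-- The rank modulo two. -/
def parity : W F →+ ZMod 2 :=
  lift
    { toFun := fun _ => 1
      mul_sq := fun _ _ => rfl
      add_neg := fun _ => rfl
      binary := fun _ _ _ _ => rfl }

theorem parity_wittClass (a : Fˣ) : parity (wittClass F a) = 1 := lift_wittClass _ a

theorem parity_surjective : Function.Surjective (parity (F := F)) := fun z => by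
  obtain ⟨k, rfl⟩ := ZMod.intCast_surjective z
  exact ⟨k • wittClass F 1, by rw [map_zsmul, parity_wittClass, zsmul_one]⟩

theorem exists_sub_mem_one (z : W F) :
    ∃ k : ℤ, z - k • wittClass F 1 ∈ fundamentalPower F 1 := by
  have hz := (closure_range_wittClass (F := F)).ge (AddSubgroup.mem_top z)
  induction hz using AddSubgroup.closure_induction with
  | mem x hx =>
    obtain ⟨a, rfl⟩ := hx
    exact ⟨-1, by
      rw [neg_one_zsmul, sub_neg_eq_add, add_comm, ← pfisterClass_one]
      exact pfisterClass_mem _ rfl⟩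
  | zero => exact ⟨0, by rw [zero_smul, sub_zero]; exact zero_mem _⟩
  | add x y _ _ hx hy =>
    obtain ⟨k, hk⟩ := hx
    obtain ⟨l, hl⟩ := hy
    exact ⟨k + l, by rw [add_smul, add_sub_add_comm]; exact add_mem hk hl⟩
  | neg x _ hx =>
    obtain ⟨k, hk⟩ := hx
    exact ⟨-k, by rw [neg_smul, ← neg_sub']; exact neg_mem hk⟩

/-- **`W / I ≅ ℤ/2`.** -/
theorem parity_eq_zero_iff {z : W F} : parity z = 0 ↔ z ∈ fundamentalPower F 1 := by
  have hle : fundamentalPower F 1 ≤ (parity (F := F)).ker := by
    refine (AddSubgroup.closure_le _).2 ?_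
    rintro _ ⟨v, rfl⟩
    show parity (pfisterClass _) = 0
    rw [List.ofFn_succ, List.ofFn_zero, pfisterClass_one, map_add, parity_wittClass,
      parity_wittClass]
    exact CharTwo.add_self_eq_zero _
  refine ⟨fun h => ?_, fun h => hle h⟩
  obtain ⟨k, hk⟩ := exists_sub_mem_one z
  have hk2 := AddMonoidHom.mem_ker.1 (hle hk)
  rw [map_sub, h, map_zsmul, parity_wittClass, zsmul_one, zero_sub, neg_eq_zero,
    ZMod.intCast_zmod_eq_zero_iff_dvd] at hk2
  obtain ⟨m, rfl⟩ := hk2
  rw [← sub_add_cancel z ((((2 : ℕ) : ℤ) * m) • wittClass F 1)]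
  refine add_mem hk ?_
  rw [show (((2 : ℕ) : ℤ) * m) • wittClass F 1 = m • pfisterClass [(1 : Fˣ)] by
    rw [pfisterClass_one, ← two_zsmul, smul_smul, mul_comm, Nat.cast_ofNat]]
  exact AddSubgroup.zsmul_mem _ (pfisterClass_mem _ (n := 1) rfl) m

/-- The first symbol modulo `I²`. -/
def symbolOne (F : Type*) [Field F] : Additive Fˣ →+ W F ⧸ fundamentalPower F 2 :=
  AddMonoidHom.mk'
    (fun a => QuotientAddGroup.mk' (fundamentalPower F 2) (pfisterClass [-a.toMul]))
    fun a b => by
      rw [← map_add, eq_comm, ← sub_eq_zero, ← map_sub, toMul_add]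
      refine (QuotientAddGroup.eq_zero_iff _).2 ?_
      rw [show pfisterClass [-a.toMul] + pfisterClass [-b.toMul] -
          pfisterClass [-(a.toMul * b.toMul)] = pfisterClass [-a.toMul, -b.toMul] by
        simp only [pfisterClass_one, pfisterClass_two, (wittClass F).apply_neg, neg_mul_neg]
        abel]
      exact pfisterClass_mem _ rfl

theorem symbolOne_apply (a : Fˣ) : symbolOne F (Additive.ofMul a) =
    QuotientAddGroup.mk' (fundamentalPower F 2) (pfisterClass [-a]) := rfl

theorem symbolOne_sq (a : Fˣ) : symbolOne F (Additive.ofMul (a ^ 2)) = 0 := by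
  rw [symbolOne_apply, pfisterClass_one, (wittClass F).apply_neg, (wittClass F).sq,
    add_neg_cancel, map_zero]

theorem mk_pfister_add_right (a b c : Fˣ) :
    QuotientAddGroup.mk' (fundamentalPower F 3) (pfisterClass [-a, -(b * c)]) =
      QuotientAddGroup.mk' (fundamentalPower F 3) (pfisterClass [-a, -b]) +
        QuotientAddGroup.mk' (fundamentalPower F 3) (pfisterClass [-a, -c]) := by
  rw [← map_add, eq_comm, ← sub_eq_zero, ← map_sub]
  refine (QuotientAddGroup.eq_zero_iff _).2 ?_
  have hL : pfisterClass [-b] + pfisterClass [-c] - pfisterClass [-(b * c)] =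
      pfisterClass [-b, -c] := by
    simp only [pfisterClass_one, pfisterClass_two, (wittClass F).apply_neg, neg_mul_neg]
    abel
  have hcons : ∀ l : List Fˣ,
      pfisterClass (-a :: l) = pfisterClass l + scale (-a) (pfisterClass l) := fun _ => rfl
  rw [show pfisterClass [-a, -b] + pfisterClass [-a, -c] - pfisterClass [-a, -(b * c)] =
      pfisterClass [-a, -b, -c] by
    rw [hcons, hcons, hcons, hcons [-b, -c], ← hL, map_sub, map_add]
    abel]
  exact pfisterClass_mem _ rfl

/-- **The second symbol modulo `I³`.** -/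
def pfisterSymbol (F : Type*) [Field F] : SteinbergSymbol F (W F ⧸ fundamentalPower F 3) where
  toFun a b := QuotientAddGroup.mk' (fundamentalPower F 3) (pfisterClass [-a, -b])
  mul_left a b c := by
    rw [pfisterClass_comm, mk_pfister_add_right, pfisterClass_comm (-c) (-a),
      pfisterClass_comm (-c) (-b)]
  mul_right := mk_pfister_add_right
  steinberg a b h := by
    rw [pfisterClass_cons_eq_zero (-a) (l := [-b]) (s := (a : F)) (t := 1)
      ⟨1, 1, ⟨1, by ring⟩, ⟨1, by ring⟩, by rw [Units.val_neg]; linear_combination h⟩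
      ⟨1, 0, ⟨1, by ring⟩, ⟨0, by ring⟩, by ring⟩ (by rw [Units.val_neg]; ring) a.ne_zero,
      map_zero]

theorem lift_pfisterSymbol_double (v : K2 F) :
    K2Rat.lift (pfisterSymbol F) v + K2Rat.lift (pfisterSymbol F) v = 0 := by
  have h : K2Rat.lift (pfisterSymbol F) + K2Rat.lift (pfisterSymbol F) = 0 :=
    K2Rat.hom_ext fun a b => by
      rw [AddMonoidHom.add_apply, K2Rat.lift_univSymbol, AddMonoidHom.zero_apply]
      show QuotientAddGroup.mk' _ _ + QuotientAddGroup.mk' _ _ = _
      rw [← map_add]
      refine (QuotientAddGroup.eq_zero_iff _).2 ?_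
      rw [show pfisterClass [-a, -b] + pfisterClass [-a, -b] = pfisterClass [1, -a, -b] by
        rw [show pfisterClass [1, -a, -b] =
          pfisterClass [-a, -b] + scale 1 (pfisterClass [-a, -b]) from rfl, scale_one]]
      exact pfisterClass_mem _ rfl
  exact DFunLike.congr_fun h v

/-- **The second symbol map** `K₂ F / 2 → W / I³`. -/
def degreeTwo (F : Type*) [Field F] : K2ModTwo F →+ W F ⧸ fundamentalPower F 3 :=
  QuotientAddGroup.lift (k2Doubles F) (K2Rat.lift (pfisterSymbol F)) (by
    rintro _ ⟨v, rfl⟩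
    rw [AddMonoidHom.mem_ker, zsmulAddGroupHom_apply, map_zsmul, two_zsmul,
      lift_pfisterSymbol_double])

theorem degreeTwo_symbolTwo (a b : Fˣ) : degreeTwo F (symbolTwo F a b) =
    QuotientAddGroup.mk' (fundamentalPower F 3) (pfisterClass [-a, -b]) :=
  K2Rat.lift_univSymbol (pfisterSymbol F) a b

theorem degreeTwo_range : (degreeTwo F).range =
    (fundamentalPower F 2).map (QuotientAddGroup.mk' (fundamentalPower F 3)) := by
  refine le_antisymm ?_ ?_
  · rintro _ ⟨x, rfl⟩
    obtain ⟨w, rfl⟩ := modTwo_surjective F x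
    have hw := (closure_range_univSymbol (F := F)).ge (AddSubgroup.mem_top w)
    induction hw using AddSubgroup.closure_induction with
    | mem y hy =>
      obtain ⟨⟨a, b⟩, rfl⟩ := hy
      rw [show modTwo F (univSymbol F a b) = symbolTwo F a b from rfl, degreeTwo_symbolTwo]
      exact AddSubgroup.mem_map_of_mem _ (pfisterClass_mem _ rfl)
    | zero => simp
    | add y z _ _ hy hz => rw [map_add, map_add]; exact add_mem hy hz
    | neg y _ hy => rw [map_neg, map_neg]; exact neg_mem hy
  · refine (AddMonoidHom.map_closure _ _).trans_le ((AddSubgroup.closure_le _).2 ?_)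
    rintro _ ⟨_, ⟨v, rfl⟩, rfl⟩
    refine ⟨symbolTwo F (-v 0) (-v 1), ?_⟩
    rw [degreeTwo_symbolTwo]
    simp [List.ofFn_succ]

/-! ### Discriminant and Hasse invariant -/

/-- The discriminant of a diagonal form. -/
def disc {n : ℕ} (w : Fin n → Fˣ) : Fˣ := ∏ i, w i

/-- **The Hasse invariant** `∑_{i<j} {a_i, a_j}`. -/
def hasse : ∀ {n : ℕ}, (Fin n → Fˣ) → K2ModTwo F
  | 0, _ => 0
  | _ + 1, w => hasse (Fin.tail w) + symbolTwo F (w 0) (disc (Fin.tail w))

/-- **A form modulo `I³`.** -/
theorem mk_cls_eq : ∀ {n : ℕ} (w : Fin n → Fˣ),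
    QuotientAddGroup.mk' (fundamentalPower F 3) (cls w) =
      QuotientAddGroup.mk' (fundamentalPower F 3)
          (wittClass F (disc w) + ((n : ℤ) - 1) • wittClass F 1) - degreeTwo F (hasse w)
  | 0, w => by
    simp [hasse, disc, cls]
  | n + 1, w => by
    have hd : disc w = w 0 * disc (Fin.tail w) := Fin.prod_univ_succ w
    conv_lhs => rw [← Fin.cons_self_tail w]
    rw [cls_cons, map_add, mk_cls_eq (Fin.tail w), hd, hasse, map_add (degreeTwo F),
      degreeTwo_symbolTwo, pfisterClass_two]
    simp only [(wittClass F).apply_neg, neg_mul_neg]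
    simp only [Nat.cast_add, Nat.cast_one, add_sub_cancel_right, sub_smul, one_smul, map_add,
      map_sub, map_neg, map_zsmul]
    abel

end Fermat.Agent.MilnorConjectureRat
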