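import Fermat.Agent.MilnorConjectureRat.Degree
import Fermat.Agent.MerkurjevRat.Rational
import Fermat.Agent.WittRat.Rational

/-!
# Milnor's conjecture for the rationals

The symbol maps are injective modulo two: in degree one by signature and residues, in degree two
because every element is one symbol. So rational forms are classified by rank, signature,
discriminant and Hasse invariant.
-/

set_option autoImplicit false

noncomputable section

open Function (update)

namespace Fermat.Agent.MilnorConjectureRat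

open Fermat.Agent.K2Rat Fermat.Agent.WittRat Fermat.Agent.MerkurjevRat Fermat.Agent.MilnorKRat

attribute [local instance] primesFact

/-- The sign of a unit. -/
def sgn (a : ℚˣ) : ℤ := signature a

theorem lift_signature (a : ℚˣ) : WittRat.lift signature (wittClass ℚ a) = sgn a :=
  lift_wittClass _ a

theorem sgn_mul (a b : ℚˣ) : sgn (a * b) = sgn a * sgn b := by
  show (if (0 : ℚ) < ((a * b : ℚˣ) : ℚ) then (1 : ℤ) else -1) =
    (if (0 : ℚ) < (a : ℚ) then 1 else -1) * (if (0 : ℚ) < (b : ℚ) then 1 else -1)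
  rcases a.ne_zero.lt_or_gt with ha | ha <;> rcases b.ne_zero.lt_or_gt with hb | hb <;>
    simp [mul_pos_iff, ha, hb, ha.not_gt, hb.not_gt]

theorem sgn_one : sgn 1 = 1 := WittRat.signature_one

theorem sgn_neg (a : ℚˣ) : sgn (-a) = -sgn a := signature.apply_neg a

theorem sgn_cases (a : ℚˣ) : sgn a = 1 ∧ 0 < (a : ℚ) ∨ sgn a = -1 ∧ (a : ℚ) < 0 := by
  rcases a.ne_zero.lt_or_gt with ha | ha
  · exact Or.inr ⟨if_neg ha.not_gt, ha⟩
  · exact Or.inl ⟨if_pos ha, ha⟩

theorem parity_residue (q : Nat.Primes) (a : ℚˣ) :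
    parity (WittRat.lift (secondResidue q) (wittClass ℚ a)) = (val q a : ZMod 2) := by
  rw [lift_wittClass]
  show parity (if Odd (val q a) then _ else 0) = _
  split_ifs with h
  · rw [parity_wittClass, ZMod.intCast_eq_one_iff_odd.2 h]
  · rw [map_zero, ZMod.intCast_eq_zero_iff_even.2 (Int.not_odd_iff_even.1 h)]

/-- The invariants on the square of the fundamental ideal. -/
theorem invariants_of_mem_two {z : W ℚ} (hz : z ∈ fundamentalPower ℚ 2) :
    (4 : ℤ) ∣ WittRat.lift signature z ∧
      ∀ q : Nat.Primes, parity (WittRat.lift (secondResidue q) z) = 0 := by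
  induction hz using AddSubgroup.closure_induction with
  | mem x hx =>
    obtain ⟨v, rfl⟩ := hx
    dsimp only
    simp only [List.ofFn_succ, List.ofFn_zero, pfisterClass_two, map_add, lift_signature,
      parity_residue, sgn_one, sgn_mul, val_mul, val_one, Int.cast_add, Int.cast_zero]
    refine ⟨?_, fun q => ?_⟩
    · rcases sgn_cases (v 0) with ⟨h, -⟩ | ⟨h, -⟩ <;>
        rcases sgn_cases (v (Fin.succ 0)) with ⟨h', -⟩ | ⟨h', -⟩ <;> rw [h, h'] <;> norm_num
    · linear_combination CharTwo.add_self_eq_zero (val q (v 0) : ZMod 2) +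
        CharTwo.add_self_eq_zero (val q (v (Fin.succ 0)) : ZMod 2)
  | zero => exact ⟨by simp, fun q => by simp⟩
  | add x y _ _ hx hy =>
    exact ⟨by rw [map_add]; exact dvd_add hx.1 hy.1,
      fun q => by rw [map_add, map_add, hx.2, hy.2, add_zero]⟩
  | neg x _ hx =>
    exact ⟨by rw [map_neg]; exact (dvd_neg).2 hx.1,
      fun q => by rw [map_neg, map_neg, hx.2, neg_zero]⟩

theorem exists_sq_of_even_val : ∀ (n : ℕ) (a : ℚˣ), a ∈ smooth n → 0 < (a : ℚ) →
    (∀ q : Nat.Primes, Even (val q a)) → ∃ c : ℚˣ, a = c ^ 2 := by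
  intro n
  induction n with
  | zero =>
    intro a ha hpos _
    rcases eq_one_or_neg_one (smooth_mono (Nat.zero_le 2) ha) with rfl | rfl
    · exact ⟨1, by simp⟩
    · norm_num at hpos
  | succ n ih =>
    intro a ha hpos hv
    by_cases hp : n.Prime
    · have := Fact.mk hp
      obtain ⟨a', ha', k, rfl⟩ := exists_decomposition ha
      obtain ⟨j, hj⟩ := hv ⟨n, hp⟩
      have hk : k = j + j := by
        rw [← hj]
        show k = val n (a' * natUnit n ^ k)
        rw [val_mul, ha' ⟨n, hp⟩ le_rfl, val_zpow, val_natUnit_self]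
        ring
      have hsq : natUnit n ^ k = (natUnit n ^ j) ^ 2 := by rw [hk, zpow_add, pow_two]
      rw [hsq] at hpos hv ⊢
      obtain ⟨c, hc⟩ := ih a' ha' (by
          rw [Units.val_mul, Units.val_pow_eq_pow_val] at hpos
          exact (mul_pos_iff_of_pos_right (sq_pos_of_ne_zero (Units.ne_zero _))).1 hpos) fun q => by
        have := hv q
        rwa [val_mul, val_sq, Int.even_add, iff_true_right (Even.add_self _)] at this
      exact ⟨c * natUnit n ^ j, by rw [hc, mul_pow]⟩
    · exact ih a (smooth_succ_le hp ha) hpos hv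

/-- **Degree one**: the kernel is the squares. -/
theorem symbolOne_eq_zero_iff {a : ℚˣ} :
    symbolOne ℚ (Additive.ofMul a) = 0 ↔ ∃ c, a = c ^ 2 := by
  refine ⟨fun h => ?_, fun ⟨c, hc⟩ => by rw [hc, symbolOne_sq]⟩
  rw [symbolOne_apply] at h
  obtain ⟨h4, hq⟩ := invariants_of_mem_two ((QuotientAddGroup.eq_zero_iff _).1 h)
  rw [pfisterClass_one, map_add, lift_signature, lift_signature, sgn_one, sgn_neg] at h4
  obtain ⟨n, hn⟩ := exists_mem_smooth a
  refine exists_sq_of_even_val n a hn ?_ fun q => ?_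
  · rcases sgn_cases a with ⟨-, ha⟩ | ⟨ha, -⟩
    · exact ha
    · rw [ha] at h4
      norm_num at h4
  · have := hq q
    rw [pfisterClass_one, map_add, map_add, parity_residue, parity_residue, val_one, val_neg,
      Int.cast_zero, zero_add] at this
    exact ZMod.intCast_eq_zero_iff_even.1 this

/-- **Degree two is injective.** -/
theorem degreeTwo_injective : Function.Injective (degreeTwo ℚ) := by
  refine (injective_iff_map_eq_zero _).2 fun x hx => ?_
  obtain ⟨a, b, rfl⟩ := exists_eq_symbolTwo x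
  rw [degreeTwo_symbolTwo] at hx
  have hmem := (QuotientAddGroup.eq_zero_iff _).1 hx
  have hz : pfisterClass [-a, -b] = 0 := by
    refine signature_injOn_fundamentalPower (n := 0) hmem ?_
    rw [fundamentalPower_rat 0, AddSubgroup.mem_zmultiples_iff] at hmem
    obtain ⟨k, hk⟩ := hmem
    have h8 := congrArg (WittRat.lift signature) hk
    rw [map_zsmul, map_nsmul, lift_signature, sgn_one] at h8
    simp only [pfisterClass_two, map_add, lift_signature, sgn_one, sgn_mul, sgn_neg, smul_eq_mul,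
      nsmul_eq_mul, mul_one] at h8 ⊢
    rcases sgn_cases a with ⟨h, -⟩ | ⟨h, -⟩ <;> rcases sgn_cases b with ⟨h', -⟩ | ⟨h', -⟩ <;>
      rw [h, h'] at h8 ⊢ <;> push_cast at h8 <;> omega
  have hcls : cls ![(1 : ℚˣ), -b, -a, -a * -b] = cls ![(1 : ℚˣ), -1, 1, -1] := by
    rw [pfisterClass_two] at hz
    simp only [cls, Fin.sum_univ_four, Matrix.cons_val_zero, Matrix.cons_val_one, Matrix.cons_val]
    rw [add_assoc _ (wittClass ℚ (-a)) (wittClass ℚ (-a * -b)), hz, (wittClass ℚ).apply_neg]
    abel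
  obtain ⟨e⟩ := (equivalent_iff_cls two_ne_zero _ _).2 hcls
  set u := e.symm ![(1 : ℚ), 1, 0, 0]
  have hu : u ≠ 0 := fun h => by
    have h1 : ![(1 : ℚ), 1, 0, 0] = e u := (e.toLinearEquiv.apply_symm_apply _).symm
    rw [h] at h1
    have h2 := congrFun (h1.trans (map_zero e.toLinearEquiv)) 0
    simp at h2
  have he : diag ![(1 : ℚˣ), -b, -a, -a * -b] u = 0 := by
    rw [e.symm.map_app]
    simp [diag, Fin.sum_univ_four]
  simp [diag, Fin.sum_univ_four] at he
  obtain ⟨s, t, hst⟩ := FA.QuaternionNF.exists_conic_of_norm_zero (r := u 0) (x := u 2) (y := u 1)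
    (z := u 3) a.ne_zero b.ne_zero (by
      by_contra hn
      push Not at hn
      exact hu (funext fun i => by fin_cases i <;> simp [hn.1, hn.2.1, hn.2.2.1, hn.2.2.2]))
    (by linear_combination he)
  exact Symbols.eq_zero_of_conic _ symbolTwo_two a b hst

/-! ### All degrees -/

/-- `K₂` is the Milnor group of degree two. -/
def milnorTwoHom (F : Type*) [Field F] : MilnorK 2 F →+ K2 F :=
  milnorLift (fun v => univSymbol F (v 0) (v 1))
    (fun v i a b => by
      fin_cases i
      · simp [(univSymbol F).mul_left]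
      · simp [(univSymbol F).mul_right])
    fun v i j hij h => by
      fin_cases i <;> fin_cases j <;> simp at hij
      exact (univSymbol F).steinberg _ _ h

theorem milnorTwoHom_bijective (F : Type*) [Field F] :
    Function.Bijective (milnorTwoHom F) := by
  let g : K2 F →+ MilnorK 2 F := K2Rat.lift (pairSymbol (fun _ => (1 : Fˣ)) 0 1 rfl)
  have h1 : g.comp (milnorTwoHom F) = AddMonoidHom.id _ := milnor_hom_ext fun v => by
    rw [AddMonoidHom.comp_apply, milnorTwoHom, milnorLift_apply, K2Rat.lift_univSymbol]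
    show milnor _ = milnor v
    congr 1
    funext i
    fin_cases i <;> simp
  have h2 : (milnorTwoHom F).comp g = AddMonoidHom.id _ := K2Rat.hom_ext fun a b => by
    rw [AddMonoidHom.comp_apply, K2Rat.lift_univSymbol]
    show milnorTwoHom F (milnor _) = univSymbol F a b
    rw [milnorTwoHom, milnorLift_apply]
    simp
  exact Function.bijective_iff_has_inverse.2
    ⟨g, fun x => DFunLike.congr_fun h1 x, fun x => DFunLike.congr_fun h2 x⟩

/-- **Milnor's conjecture for `ℚ`** in every positive degree. -/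
theorem exists_milnor_pfister : ∀ {n : ℕ}, 1 ≤ n →
    ∃ h : MilnorK n ℚ →+ W ℚ ⧸ fundamentalPower ℚ (n + 1),
      (∀ v : Fin n → ℚˣ, h (milnor v) = QuotientAddGroup.mk' (fundamentalPower ℚ (n + 1))
        (pfisterClass (List.ofFn fun i => -v i))) ∧
      (∀ x, h x = 0 ↔ ∃ y, x = y + y) ∧
        h.range =
          (fundamentalPower ℚ n).map (QuotientAddGroup.mk' (fundamentalPower ℚ (n + 1))) := by
  intro n hn
  match n, hn with
  | 1, _ =>
    let h : MilnorK 1 ℚ →+ W ℚ ⧸ fundamentalPower ℚ 2 :=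
      milnorLift (fun v => symbolOne ℚ (Additive.ofMul (v 0)))
        (fun v i a b => by
          fin_cases i
          simp)
        fun v i j hij _ => absurd hij (by omega)
    have hv : ∀ v : Fin 1 → ℚˣ, h (milnor v) = symbolOne ℚ (Additive.ofMul (v 0)) := fun v =>
      milnorLift_apply _ _ _ v
    have hone : ∀ x : MilnorK 1 ℚ, ∃ a : ℚˣ, x = milnor (fun _ => a) := by
      have hd : ∀ a b : ℚˣ,
          milnor (fun _ : Fin 1 => a * b) = milnor (fun _ => a) + milnor (fun _ => b) :=
        fun a b => by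
        have hu : ∀ x : ℚˣ, update (fun _ : Fin 1 => (1 : ℚˣ)) 0 x = fun _ => x := fun x =>
          funext fun i => by fin_cases i; simp
        rw [← hu a, ← hu b, ← hu (a * b), milnor_mul]
      refine milnor_induction ⟨1, (milnor_of_eq_one (i := 0) rfl).symm⟩
        (fun v => ⟨v 0, congrArg milnor (funext fun i => by fin_cases i; rfl)⟩)
        (fun x ⟨a, ha⟩ => ⟨a⁻¹, ?_⟩) fun x y ⟨a, ha⟩ ⟨b, hb⟩ => ⟨a * b, by rw [ha, hb, hd]⟩
      rw [ha, neg_eq_iff_add_eq_zero, ← hd, mul_inv_cancel]
      exact milnor_of_eq_one (i := 0) rfl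
    refine ⟨h, fun v => ?_, fun x => ⟨fun hx => ?_, fun ⟨y, hy⟩ => ?_⟩, le_antisymm ?_ ?_⟩
    · rw [hv, symbolOne_apply]
      simp [List.ofFn_succ]
    · obtain ⟨a, rfl⟩ := hone x
      rw [hv] at hx
      obtain ⟨c, rfl⟩ := symbolOne_eq_zero_iff.1 hx
      refine ⟨milnor fun _ => c, ?_⟩
      rw [← two_zsmul]
      have hu : ∀ x : ℚˣ, update (fun _ : Fin 1 => (1 : ℚˣ)) 0 x = fun _ => x := fun x =>
        funext fun i => by fin_cases i; simp
      rw [← hu c, ← milnor_zpow, ← hu (c ^ 2), zpow_two, pow_two]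
    · obtain ⟨a, rfl⟩ := hone y
      rw [hy, map_add, hv, ← map_add, ← ofMul_mul, ← pow_two, symbolOne_sq]
    · rintro _ ⟨x, rfl⟩
      obtain ⟨a, rfl⟩ := hone x
      rw [hv, symbolOne_apply]
      exact AddSubgroup.mem_map_of_mem _ (pfisterClass_mem _ rfl)
    · refine (AddMonoidHom.map_closure _ _).trans_le ((AddSubgroup.closure_le _).2 ?_)
      rintro _ ⟨_, ⟨v, rfl⟩, rfl⟩
      refine ⟨milnor fun _ => -v 0, ?_⟩
      rw [hv, symbolOne_apply, neg_neg]
      simp [List.ofFn_succ]
  | 2, _ =>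
    refine ⟨(degreeTwo ℚ).comp ((modTwo ℚ).comp (milnorTwoHom ℚ)), fun v => ?_, fun x => ?_, ?_⟩
    · rw [AddMonoidHom.comp_apply, AddMonoidHom.comp_apply, milnorTwoHom, milnorLift_apply]
      refine (degreeTwo_symbolTwo (v 0) (v 1)).trans ?_
      simp [List.ofFn_succ]
    · rw [AddMonoidHom.comp_apply, map_eq_zero_iff _ degreeTwo_injective, AddMonoidHom.comp_apply,
        modTwo_eq_zero_iff]
      constructor
      · rintro ⟨w, hw⟩
        obtain ⟨y, rfl⟩ := (milnorTwoHom_bijective ℚ).2 w
        exact ⟨y, (milnorTwoHom_bijective ℚ).1 (hw.trans (map_add _ y y).symm)⟩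
      · rintro ⟨y, rfl⟩
        exact ⟨milnorTwoHom ℚ y, map_add _ y y⟩
    · rw [AddMonoidHom.range_comp, AddMonoidHom.range_comp,
        AddMonoidHom.range_eq_top.2 (milnorTwoHom_bijective ℚ).2, ← AddMonoidHom.range_eq_map,
        AddMonoidHom.range_eq_top.2 (modTwo_surjective ℚ), ← AddMonoidHom.range_eq_map,
        degreeTwo_range]
  | m + 3, _ =>
    refine ⟨toPfister m, toPfister_milnor, fun x => ⟨fun hx => ⟨0, ?_⟩, fun ⟨y, hy⟩ => ?_⟩,
      toPfister_range m⟩
    · rw [add_zero]
      exact toPfister_injective m (hx.trans (map_zero _).symm)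
    · rw [hy, show y + y = 0 from signHom_bijective.1 (by
        rw [map_add, map_zero]
        exact CharTwo.add_self_eq_zero _), map_zero]

/-! ### The invariant and the classification -/

/-- **The invariant `e₂`**: `I² / I³ ≅ Br ℚ [2]`. -/
theorem exists_e_two : ∃ e : (fundamentalPower ℚ 2) →+ Additive (BrauerGroup.{0, 0} ℚ),
    (∀ a b : ℚˣ, e ⟨pfisterClass [-a, -b], pfisterClass_mem _ rfl⟩ =
      Additive.ofMul (quatClass a b)) ∧
    (∀ z, e z = 0 ↔ (z : W ℚ) ∈ fundamentalPower ℚ 3) ∧
      ∀ x : BrauerGroup.{0, 0} ℚ, Additive.ofMul x ∈ e.range ↔ x ^ 2 = 1 := by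
  let E : K2ModTwo ℚ ≃+ (degreeTwo ℚ).range := AddMonoidHom.ofInjective degreeTwo_injective
  let π : (fundamentalPower ℚ 2) →+ (degreeTwo ℚ).range :=
    ((QuotientAddGroup.mk' (fundamentalPower ℚ 3)).comp (fundamentalPower ℚ 2).subtype).codRestrict
      _ fun z => by rw [degreeTwo_range]; exact AddSubgroup.mem_map_of_mem _ z.2
  have hπ : ∀ z, (π z : W ℚ ⧸ fundamentalPower ℚ 3) =
      QuotientAddGroup.mk' (fundamentalPower ℚ 3) (z : W ℚ) := fun _ => rfl
  refine ⟨(normResidue ℚ).comp (E.symm.toAddMonoidHom.comp π), fun a b => ?_, fun z => ?_,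
    fun x => ?_⟩
  · show normResidue ℚ (E.symm (π _)) = _
    rw [← normResidue_symbolTwo]
    refine congrArg _ (E.symm_apply_eq.2 (Subtype.ext ?_))
    exact (degreeTwo_symbolTwo a b).symm
  · show normResidue ℚ (E.symm (π z)) = 0 ↔ _
    rw [map_eq_zero_iff _ normResidue_injective, map_eq_zero_iff _ E.symm.injective,
      Subtype.ext_iff,
      hπ]
    exact QuotientAddGroup.eq_zero_iff _
  · rw [← normResidue_range]
    refine ⟨fun ⟨z, hz⟩ => ⟨_, hz⟩, fun ⟨y, hy⟩ => ?_⟩
    obtain ⟨w, hw, hw'⟩ : degreeTwo ℚ y ∈ (fundamentalPower ℚ 2).map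
        (QuotientAddGroup.mk' (fundamentalPower ℚ 3)) := by
      rw [← degreeTwo_range]
      exact ⟨y, rfl⟩
    refine ⟨⟨w, hw⟩, ?_⟩
    show normResidue ℚ (E.symm (π ⟨w, hw⟩)) = _
    rw [← hy]
    refine congrArg _ (E.symm_apply_eq.2 (Subtype.ext ?_))
    exact hw'

/-- **Classical classification**: rank, signature, discriminant and Hasse invariant. -/
theorem equivalent_iff_disc_hasse {n : ℕ} (w v : Fin n → ℚˣ) :
    QuadraticMap.Equivalent (diag w) (diag v) ↔
      (∑ i, sgn (w i) = ∑ i, sgn (v i)) ∧ (∃ c, disc w = disc v * c ^ 2) ∧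
        hasse w = hasse v := by
  rw [equivalent_iff_cls two_ne_zero]
  have hsig : ∀ u : Fin n → ℚˣ, WittRat.lift signature (cls u) = ∑ i, sgn (u i) := fun u => by
    rw [cls, map_sum]
    exact Finset.sum_congr rfl fun i _ => lift_signature _
  have hw := mk_cls_eq w
  have hv := mk_cls_eq v
  constructor
  · intro h
    have hdisc : ∃ c, disc w = disc v * c ^ 2 := by
      have h1 : wittClass ℚ (disc w) - wittClass ℚ (disc v) ∈ fundamentalPower ℚ 2 := by
        have h2 : degreeTwo ℚ (hasse w) - degreeTwo ℚ (hasse v) ∈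
            (fundamentalPower ℚ 2).map (QuotientAddGroup.mk' (fundamentalPower ℚ 3)) := by
          rw [← degreeTwo_range, ← map_sub]
          exact ⟨_, rfl⟩
        obtain ⟨z, hz, hz'⟩ := h2
        have h3 : QuotientAddGroup.mk' (fundamentalPower ℚ 3)
            (wittClass ℚ (disc w) - wittClass ℚ (disc v) - z) = 0 := by
          rw [h, hv] at hw
          rw [map_sub, map_sub, hz']
          simp only [map_add] at hw ⊢
          linear_combination (norm := abel) -hw
        have h4 : wittClass ℚ (disc w) - wittClass ℚ (disc v) - z ∈ fundamentalPower ℚ 2 :=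
          fundamentalPower_anti 1 ((QuotientAddGroup.eq_zero_iff _).1 h3)
        simpa using add_mem h4 hz
      have h5 : symbolOne ℚ (Additive.ofMul (disc w * (disc v)⁻¹)) = 0 := by
        rw [ofMul_mul, ofMul_inv, map_add, map_neg, symbolOne_apply, symbolOne_apply, ← map_neg,
          ← map_add]
        refine (QuotientAddGroup.eq_zero_iff _).2 ?_
        rw [pfisterClass_one, pfisterClass_one, (wittClass ℚ).apply_neg, (wittClass ℚ).apply_neg]
        convert neg_mem h1 using 1
        abel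
      obtain ⟨c, hc⟩ := symbolOne_eq_zero_iff.1 h5
      exact ⟨c, by rw [← hc, mul_comm (disc v), inv_mul_cancel_right]⟩
    refine ⟨by rw [← hsig, ← hsig, h], hdisc, degreeTwo_injective ?_⟩
    obtain ⟨c, hc⟩ := hdisc
    rw [h, hc, (wittClass ℚ).mul_sq, hv] at hw
    exact (sub_right_injective hw).symm
  · rintro ⟨h1, ⟨c, hc⟩, h3⟩
    have hmem : cls w - cls v ∈ fundamentalPower ℚ 3 := by
      refine (QuotientAddGroup.eq_zero_iff _).1 ?_
      show QuotientAddGroup.mk' (fundamentalPower ℚ 3) (cls w - cls v) = 0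
      rw [map_sub, hw, hv, hc, (wittClass ℚ).mul_sq, h3, sub_self]
    exact sub_eq_zero.1 (signature_injOn_fundamentalPower (n := 0) hmem (by
      rw [map_sub, hsig, hsig, h1, sub_self]))

theorem normResidue_hasse : ∀ {n : ℕ} (w : Fin n → ℚˣ), normResidue ℚ (hasse w) =
    Additive.ofMul (∏ i, ∏ j ∈ Finset.Ioi i, quatClass (w i) (w j))
  | 0, w => by simp [hasse]
  | n + 1, w => by
    have hprod : ∀ (a : ℚˣ) (s : Finset (Fin n)) (u : Fin n → ℚˣ),
        quatClass a (∏ j ∈ s, u j) = ∏ j ∈ s, quatClass a (u j) := fun a s u =>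
      map_prod (MonoidHom.mk' (quatClass a) (quatClass_mul_right a)) u s
    rw [hasse, map_add, normResidue_hasse (Fin.tail w), normResidue_symbolTwo, ← ofMul_mul,
      Fin.prod_univ_succ, Fin.prod_Ioi_zero, disc, hprod, mul_comm]
    simp only [Fin.prod_Ioi_succ]
    rfl

end Fermat.Agent.MilnorConjectureRat
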